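import Fermat.Agent.Mink.Finite
import Fermat.Agent.Frob.Exists

set_option autoImplicit false

/-!
# Lifting inertia elements; Hermite–Minkowski for the absolute Galois group

`eq_top_of_inertia_le`: an open normal subgroup of `Gal(L/ℚ)` (`L/ℚ` Galois, e.g. `L = ℚ̄`) which
contains all inertia groups is everything.
-/

namespace Fermat.Agent.Mink

open scoped Pointwise

-- use the algebra structures coming from `L`
attribute [-instance] DivisionRing.toRatAlgebra

variable {L : Type*} [Field L] [Algebra ℚ L] [IsGalois ℚ L]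

lemma inv_mul_smul_eq {G X : Type*} [Group G] [MulAction G X] {a b : G} {x : X}
    (ha : a • x = x) (hb : b • x = x) : (a⁻¹ * b) • x = x := by
  rw [mul_smul, hb, inv_smul_eq_iff, ha]

section Base

variable (F : IntermediateField ℚ L)

/-- the inclusion of rings of integers -/
def incl : integralClosure ℤ F →+* integralClosure ℤ L where
  toFun x := ⟨algebraMap F L x, by
    exact (IsIntegral.map (algebraMap F L).toIntAlgHom x.2)⟩
  map_one' := rfl
  map_zero' := rfl
  map_mul' _ _ := rfl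
  map_add' _ _ := rfl

omit [IsGalois ℚ L] in
@[simp] lemma coe_incl (x : integralClosure ℤ F) : ((incl F x : integralClosure ℤ L) : L) = ((x : F) : L) := rfl

/-- algebra structure on the ring of integers of `L` over that of `F`. -/
@[reducible] def inclAlgebra : Algebra (integralClosure ℤ F) (integralClosure ℤ L) := (incl F).toAlgebra

/-- the Galois group of `L` over `F` as a subgroup of the Galois group over `ℚ`. -/
abbrev GF : Subgroup (L ≃ₐ[ℚ] L) := F.fixingSubgroup

lemma isInvariant_GF :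
    @Algebra.IsInvariant (integralClosure ℤ F) (integralClosure ℤ L) (GF F) _ _ (inclAlgebra F) _ _ := by
  let _ := inclAlgebra F
  constructor
  intro b hb
  have h1 : (b : L) ∈ IntermediateField.fixedField (GF F) := by
    rw [IntermediateField.mem_fixedField_iff]
    intro σ hσ
    exact congrArg Subtype.val (hb ⟨σ, hσ⟩)
  rw [InfiniteGalois.fixedField_fixingSubgroup] at h1
  have h2 : IsIntegral ℤ (⟨(b : L), h1⟩ : F) := by
    have : IsIntegral ℤ (algebraMap F L ⟨(b : L), h1⟩) := b.2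
    exact (isIntegral_algebraMap_iff (algebraMap F L).injective).mp this
  exact ⟨⟨_, h2⟩, Subtype.ext rfl⟩

omit [IsGalois ℚ L] in
lemma smulCommClass_GF :
    let _ := inclAlgebra F
    SMulCommClass (GF F) (integralClosure ℤ F) (integralClosure ℤ L) := by
  let _ := inclAlgebra F
  constructor
  intro σ a b
  rw [Algebra.smul_def, Algebra.smul_def, smul_mul']
  congr 1
  apply Subtype.ext
  exact (IntermediateField.mem_fixingSubgroup_iff F σ.1).mp σ.2 _ (a : F).2

instance compactSpace_GF : CompactSpace (GF F) :=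
  isCompact_iff_compactSpace.mp (InfiniteGalois.fixingSubgroup_isClosed F).isCompact

variable {F}

set_option maxHeartbeats 1600000 in
/-- lifting an inertia element of `Gal(F/ℚ)` to an inertia element of `Gal(L/ℚ)`. -/
theorem exists_lift_inertia [Normal ℚ F] {ℓ : ℕ} (hℓ : ℓ.Prime) {A : ValuationSubring L}
    (hA : A.LiesOverPrime ℓ) (τ : F ≃ₐ[ℚ] F)
    (hτ : ∀ x : integralClosure ℤ F, τ • x - x ∈ (Frob.center A).comap (incl F)) :
    ∃ σ ∈ A.inertiaSubgroupIn ℚ, ∀ x : F, σ (x : L) = (τ x : F) := by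
  let _ := inclAlgebra F
  have _ := isInvariant_GF F
  have _ := smulCommClass_GF F
  let _ : TopologicalSpace (integralClosure ℤ L) := ⊥
  have _ : DiscreteTopology (integralClosure ℤ L) := ⟨rfl⟩
  have _ : ContinuousSMul (L ≃ₐ[ℚ] L) (integralClosure ℤ L) := Frob.continuousSMul_integralClosure
  -- any lift of `τ`
  obtain ⟨τ₀, hτ₀⟩ := AlgEquiv.restrictNormalHom_surjective (F := ℚ) (K₁ := F) L τ
  have hτ₀' : ∀ x : F, τ₀ (x : L) = (τ x : F) := by
    intro x
    rw [← hτ₀]
    exact (AlgEquiv.restrictNormal_commutes τ₀ F x).symm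
  -- make it preserve `A`
  set 𝔓 := Frob.center A with h𝔓
  have hsm : ∀ x : integralClosure ℤ F, τ₀⁻¹ • incl F x = incl F (τ⁻¹ • x) := by
    intro x
    rw [inv_smul_eq_iff]
    apply Subtype.ext
    change ((x : F) : L) = τ₀ (((τ⁻¹ • x : integralClosure ℤ F) : F) : L)
    rw [hτ₀']
    congr 1
    change (x : F) = τ (τ⁻¹ (x : F))
    rw [← AlgEquiv.mul_apply, mul_inv_cancel, AlgEquiv.one_apply]
  have hunder : (τ₀ • 𝔓).under (integralClosure ℤ F) = 𝔓.under (integralClosure ℤ F) := by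
    ext x
    rw [Ideal.mem_comap, Ideal.mem_comap, Ideal.mem_pointwise_smul_iff_inv_smul_mem]
    change τ₀⁻¹ • incl F x ∈ 𝔓 ↔ incl F x ∈ 𝔓
    rw [hsm]
    have h1 := hτ (τ⁻¹ • x)
    rw [smul_inv_smul, Ideal.mem_comap, map_sub] at h1
    constructor
    · intro h; simpa using add_mem h1 h
    · intro h; simpa using sub_mem h h1
  obtain ⟨g, hg⟩ := Algebra.IsInvariant.exists_smul_of_under_eq_of_profinite
    (A := integralClosure ℤ F) (G := GF F) (τ₀ • 𝔓) 𝔓 hunder
  set τ₁ : L ≃ₐ[ℚ] L := g.1 * τ₀ with hτ₁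
  have h𝔓1 : τ₁ • 𝔓 = 𝔓 := by
    rw [hτ₁, mul_smul]
    exact hg.symm
  have hτ₁' : ∀ x : F, τ₁ (x : L) = (τ x : F) := by
    intro x
    rw [hτ₁, AlgEquiv.mul_apply, hτ₀']
    exact (IntermediateField.mem_fixingSubgroup_iff F g.1).mp g.2 _ (τ x).2
  -- the induced automorphism of the residue ring
  let P : Ideal (integralClosure ℤ F) := 𝔓.under (integralClosure ℤ F)
  have hover : 𝔓.LiesOver P := ⟨rfl⟩
  have hinc : ∀ x : integralClosure ℤ F, algebraMap (integralClosure ℤ F) (integralClosure ℤ L) x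
    = incl F x := fun x => rfl
  let f : (integralClosure ℤ L ⧸ 𝔓) ≃+* (integralClosure ℤ L ⧸ 𝔓) :=
    Ideal.quotientEquiv 𝔓 𝔓 (MulSemiringAction.toRingEquiv (L ≃ₐ[ℚ] L) (integralClosure ℤ L) τ₁)
      h𝔓1.symm
  have hf : ∀ b : integralClosure ℤ L, f (Ideal.Quotient.mk 𝔓 b) = Ideal.Quotient.mk 𝔓 (τ₁ • b) :=
    fun b => rfl
  let f' : (integralClosure ℤ L ⧸ 𝔓) ≃ₐ[integralClosure ℤ F ⧸ P] (integralClosure ℤ L ⧸ 𝔓) :=
    { f with
      commutes' := by
        intro r
        obtain ⟨x, rfl⟩ := Ideal.Quotient.mk_surjective r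
        have e : algebraMap (integralClosure ℤ F ⧸ P) (integralClosure ℤ L ⧸ 𝔓)
          (Ideal.Quotient.mk P x) = Ideal.Quotient.mk 𝔓 (incl F x) := rfl
        rw [e]
        change f (Ideal.Quotient.mk 𝔓 (incl F x)) = _
        rw [hf, Ideal.Quotient.eq]
        have h1 := hτ x
        rw [Ideal.mem_comap, map_sub] at h1
        have h2 : τ₁ • incl F x = incl F (τ • x) := by
          apply Subtype.ext
          exact hτ₁' x
        rw [h2]
        exact h1 }
  obtain ⟨h, hF, hh1, h3⟩ : ∃ h : L ≃ₐ[ℚ] L, h ∈ F.fixingSubgroup ∧ h • 𝔓 = 𝔓 ∧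
      ∀ b : integralClosure ℤ L,
        Ideal.Quotient.mk 𝔓 (h • b) = Ideal.Quotient.mk 𝔓 (τ₁ • b) := by
    obtain ⟨⟨h, hh⟩, hf'⟩ := Ideal.Quotient.stabilizerHom_surjective_of_profinite
      (G := GF F) P 𝔓 f'
    exact ⟨h.1, h.2, hh, fun b => DFunLike.congr_fun hf' (Ideal.Quotient.mk 𝔓 b)⟩
  clear_value τ₁ 𝔓
  set σ : L ≃ₐ[ℚ] L := h⁻¹ * τ₁ with hσ
  have hσ𝔓 : σ • 𝔓 = 𝔓 := inv_mul_smul_eq hh1 h𝔓1
  have hσA : σ • A = A := by
    apply Frob.center_injective
    rw [Frob.center_smul, ← h𝔓]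
    exact hσ𝔓
  have hσb : ∀ b : integralClosure ℤ L, σ • b - b ∈ 𝔓 := by
    intro b
    have h4 := h3 b
    rw [Ideal.Quotient.eq] at h4
    have h5 : h⁻¹ • (h • b - τ₁ • b) ∈ h⁻¹ • 𝔓 :=
      Ideal.smul_mem_pointwise_smul _ _ _ h4
    have h6 : h⁻¹ • 𝔓 = 𝔓 := by
      rw [inv_smul_eq_iff, hh1]
    rw [h6, smul_sub, inv_smul_smul, ← mul_smul, ← hσ] at h5
    rw [← neg_sub]
    exact neg_mem h5
  refine ⟨σ, ?_, ?_⟩
  · refine ⟨⟨σ, hσA⟩, ?_, rfl⟩
    change MulSemiringAction.toRingAut (A.decompositionSubgroup ℚ)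
      (IsLocalRing.ResidueField A) ⟨σ, hσA⟩ = 1
    ext x
    obtain ⟨b, rfl⟩ := Frob.residue_toVal_surjective hℓ hA x
    have h7 : IsLocalRing.residue A (Frob.toVal A (σ • b - b)) = 0 := by
      rw [IsLocalRing.residue_eq_zero_iff]
      have := hσb b
      rw [h𝔓] at this
      exact this
    rw [map_sub, map_sub, sub_eq_zero] at h7
    exact h7
  · intro x
    rw [hσ, AlgEquiv.mul_apply, hτ₁']
    exact (IntermediateField.mem_fixingSubgroup_iff F _).mp (inv_mem hF) _ (τ x).2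

end Base

set_option maxHeartbeats 1600000 in
/-- **Minkowski**: an open normal subgroup of `Gal(L/ℚ)` containing all the inertia groups is the
whole group. -/
theorem eq_top_of_inertia_le (H : Subgroup (L ≃ₐ[ℚ] L)) [hn : H.Normal]
    (hopen : IsOpen (H : Set (L ≃ₐ[ℚ] L)))
    (hin : ∀ ℓ : ℕ, ℓ.Prime → ∀ A : ValuationSubring L, A.LiesOverPrime ℓ →
      A.inertiaSubgroupIn ℚ ≤ H) : H = ⊤ := by
  have hclosed : IsClosed (H : Set (L ≃ₐ[ℚ] L)) := Subgroup.isClosed_of_isOpen H hopen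
  set F := IntermediateField.fixedField H with hF
  have hfix : F.fixingSubgroup = H :=
    InfiniteGalois.fixingSubgroup_fixedField (⟨H, hclosed⟩ : ClosedSubgroup (L ≃ₐ[ℚ] L))
  have hfin : FiniteDimensional ℚ F := by
    rw [← InfiniteGalois.isOpen_iff_finite, hfix]
    exact hopen
  have hgal : @IsGalois ℚ _ F _ (IntermediateField.algebra' F) := by
    rw [← InfiniteGalois.normal_iff_isGalois, hfix]
    exact hn
  have : CharZero L := charZero_of_injective_algebraMap (algebraMap ℚ L).injective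
  rcases Nat.lt_or_ge 1 (Module.finrank ℚ F) with hlt | hle
  · exfalso
    obtain ⟨ℓ, hℓ, hram⟩ := exists_inertia_ne_one' (F := F) (IntermediateField.algebra' F)
      hfin hgal hlt
    obtain ⟨A, hA⟩ := Frob.exists_liesOverPrime L hℓ
    obtain ⟨τ, hτ1, hτ⟩ := hram ((Frob.center A).comap (incl F)) (Ideal.comap_isPrime _ _) (by
      rw [Ideal.mem_comap, map_natCast]
      exact (Frob.natCast_mem_center_iff A ℓ).mpr hA)
    have hnorm : @Normal ℚ F _ _ (IntermediateField.algebra' F) := hgal.to_normal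
    obtain ⟨σ, hσ, hστ⟩ := exists_lift_inertia (F := F) hℓ hA τ hτ
    apply hτ1
    ext x
    have h1 : σ ∈ F.fixingSubgroup := by
      rw [hfix]; exact hin ℓ hℓ A hA hσ
    have h2 := (IntermediateField.mem_fixingSubgroup_iff F σ).mp h1 _ x.2
    rw [hστ x] at h2
    rw [AlgEquiv.one_apply]
    exact h2
  · have h1 : Module.finrank ℚ F = 1 := le_antisymm hle Module.finrank_pos
    have h2 : F = ⊥ := IntermediateField.finrank_eq_one_iff.mp h1
    rw [← hfix, h2, IntermediateField.fixingSubgroup_bot]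

theorem eq_top_of_inertia_le' (H : Subgroup (L ≃ₐ[ℚ] L)) [hn : H.Normal]
    (E : IntermediateField ℚ L) [FiniteDimensional ℚ E] (hE : E.fixingSubgroup ≤ H)
    (hin : ∀ ℓ : ℕ, ℓ.Prime → ∀ A : ValuationSubring L, A.LiesOverPrime ℓ →
      A.inertiaSubgroupIn ℚ ≤ H) : H = ⊤ :=
  eq_top_of_inertia_le H (Subgroup.isOpen_mono hE (IntermediateField.fixingSubgroup_isOpen E)) hin

end Fermat.Agent.Mink
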