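import Mathlib

set_option autoImplicit false

/-!
# Hermite–Minkowski: existence of non-trivial inertia elements in finite Galois extensions of `ℚ`
-/

namespace Fermat.Agent.Mink

open scoped Pointwise NumberField

variable {F : Type*} [Field F] [NumberField F] [IsGalois ℚ F]

theorem exists_inertia_ne_one (H : 1 < Module.finrank ℚ F) :
    ∃ p : ℕ, p.Prime ∧ ∀ (P : Ideal (integralClosure ℤ F)) (_ : P.IsPrime),
      (p : integralClosure ℤ F) ∈ P →
      ∃ τ : F ≃ₐ[ℚ] F, τ ≠ 1 ∧ ∀ x : integralClosure ℤ F, τ • x - x ∈ P := by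
  obtain ⟨p, hp, hP⟩ := NumberField.exists_not_isUnramifiedAt_int_of_isGalois
    (K := F) (𝒪 := integralClosure ℤ F) H
  refine ⟨p, hp, fun P hPp hpP => ?_⟩
  have h1 := hP P hPp hpP
  have := IsIntegralClosure.isDedekindDomain ℤ ℚ F (integralClosure ℤ F)
  have := IsIntegralClosure.isFractionRing_of_finite_extension ℤ ℚ F (integralClosure ℤ F)
  have := IsIntegralClosure.finite ℤ ℚ F (integralClosure ℤ F)
  have := CharZero.of_module (R := integralClosure ℤ F) F
  have hG := IsGaloisGroup.of_isFractionRing Gal(F/ℚ) ℤ (integralClosure ℤ F) ℚ F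
  have hunder : P.under ℤ = Ideal.span {(p : ℤ)} := by
    symm
    apply (PrincipalIdealRing.isMaximal_of_irreducible
      (Nat.prime_iff_prime_int.mp hp).irreducible).eq_of_le
    · exact Ideal.IsPrime.ne_top inferInstance
    · rw [Ideal.span_singleton_le_iff_mem, Ideal.mem_comap]
      simpa using hpP
  have hne : P.under ℤ ≠ ⊥ := by
    rw [hunder, Ne, Ideal.span_singleton_eq_bot]
    exact_mod_cast hp.ne_zero
  have hcard := Ideal.card_inertia_eq_ramificationIdxIn (G := Gal(F/ℚ)) (P.under ℤ) P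
  rw [Ideal.ramificationIdxIn_eq_ramificationIdx (P.under ℤ) P Gal(F/ℚ)] at hcard
  rw [← Ideal.ramificationIdx_eq_one_iff, ← hcard] at h1
  have h2 : Nontrivial (P.inertia Gal(F/ℚ)) := by
    by_contra hcon
    rw [not_nontrivial_iff_subsingleton] at hcon
    exact h1 (Nat.card_of_subsingleton (1 : P.inertia Gal(F/ℚ)))
  obtain ⟨⟨τ, hτ⟩, hne1⟩ := exists_ne (1 : P.inertia Gal(F/ℚ))
  exact ⟨τ, fun h => hne1 (Subtype.ext h), hτ⟩

omit [NumberField F] [IsGalois ℚ F] in
theorem exists_inertia_ne_one' [CharZero F] (inst : Algebra ℚ F)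
    (hfin : @FiniteDimensional ℚ F _ _ inst.toModule) (hgal : IsGalois ℚ F)
    (H : 1 < @Module.finrank ℚ F _ _ inst.toModule) :
    ∃ p : ℕ, p.Prime ∧ ∀ (P : Ideal (integralClosure ℤ F)) (_ : P.IsPrime),
      (p : integralClosure ℤ F) ∈ P →
      ∃ τ : F ≃ₐ[ℚ] F, τ ≠ 1 ∧ ∀ x : integralClosure ℤ F, τ • x - x ∈ P := by
  obtain rfl : inst = DivisionRing.toRatAlgebra := Subsingleton.elim _ _
  have : NumberField F := { to_charZero := inferInstance, to_finiteDimensional := hfin }
  exact exists_inertia_ne_one H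

end Fermat.Agent.Mink
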